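import Mathlib
import Fermat.Prelude.Def_CuspForm_IntegralLattice
import Fermat.Prelude.Def_CuspForm_IntegralStructure
import Fermat.Prelude.Def_CuspForm_HeckeAlgebra
import Fermat.Prelude.Thm_CuspForm_intLattice_fg
import Fermat.Prelude.Thm_CuspForm_mem_intLattice_of_mem_heckeAlgebra
import Fermat.Prelude.Thm_ModularFormClass_qCoeff_heckeT
import Fermat.Prelude.Thm_ModularFormClass_qCoeff_heckeU
import Fermat.Prelude.Thm_CongruenceSubgroup_one_mem_strictPeriods_Gamma0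

set_option autoImplicit false
open CuspForm EisensteinWeightOne CongruenceSubgroup ModularFormClass UpperHalfPlane

namespace Fermat.Agent.S49

variable {N : ℕ}

theorem one_mem_sp : (1 : ℝ) ∈ (Gamma0 N : Subgroup (GL (Fin 2) ℝ)).strictPeriods :=
  CongruenceSubgroup.one_mem_strictPeriods_Gamma0 N

theorem qCoeff_add (f g : CuspForm (Gamma0 N) 2) (n : ℕ) :
    qCoeff (⇑(f + g)) n = qCoeff (⇑f) n + qCoeff (⇑g) n := by
  unfold qCoeff
  rw [FunLike.coe_add, ModularForm.qExpansion_add one_pos one_mem_sp f g]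
  simp

theorem qCoeff_smul (c : ℂ) (f : CuspForm (Gamma0 N) 2) (n : ℕ) :
    qCoeff (⇑(c • f)) n = c * qCoeff (⇑f) n := by
  unfold qCoeff
  rw [FunLike.coe_smul, ModularForm.qExpansion_smul one_pos one_mem_sp c f]
  simp

theorem qCoeff_zero_eq (f : CuspForm (Gamma0 N) 2) : qCoeff (⇑f) 0 = 0 :=
  CuspFormClass.qExpansion_coeff_zero f one_pos one_mem_sp

theorem eq_zero_of_qCoeff (f : CuspForm (Gamma0 N) 2) (h : ∀ n, qCoeff (⇑f) n = 0) : f = 0 := by
  have hΓ := one_mem_sp (N := N)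
  have : Fact (IsCusp OnePoint.infty (Gamma0 N : Subgroup (GL (Fin 2) ℝ))) :=
    ⟨Subgroup.isCusp_of_mem_strictPeriods one_pos hΓ⟩
  have h0 : qExpansion 1 (⇑f) = 0 := by
    ext n
    have := h n
    unfold qCoeff at this
    simpa using this
  have := (UpperHalfPlane.qExpansion_eq_zero_iff one_pos
    (SlashInvariantFormClass.periodic_comp_ofComplex f hΓ)
    (ModularFormClass.holo f) (ModularFormClass.bdd_at_infty f)).mp h0
  exact DFunLike.coe_injective this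

/-- The `n`-th `q`-coefficient as a linear form. -/
noncomputable def qLin (N : ℕ) (n : ℕ) : CuspForm (Gamma0 N) 2 →ₗ[ℂ] ℂ where
  toFun f := qCoeff (⇑f) n
  map_add' f g := qCoeff_add f g n
  map_smul' c f := by simpa using qCoeff_smul c f n

theorem qLin_apply (n : ℕ) (f : CuspForm (Gamma0 N) 2) : qLin N n f = qCoeff (⇑f) n := rfl

instance instTorsionFreeCuspForm : Module.IsTorsionFree ℤ (CuspForm (Gamma0 N) 2) :=
  Module.IsTorsionFree.trans ℂ

/-- Forms with integral `q`-expansion. -/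
def IntCoeff (f : CuspForm (Gamma0 N) 2) : Prop :=
  ∀ n : ℕ, ∃ m : ℤ, qCoeff (⇑f) n = (m : ℂ)

theorem mem_qIntegralSet_iff (f : CuspForm (Gamma0 N) 2) :
    f ∈ CuspForm.qIntegralSet N ↔ IntCoeff f := by
  unfold CuspForm.qIntegralSet IntCoeff
  simp only [Set.mem_ofPred_eq, Subring.mem_bot]
  constructor
  · intro h n
    obtain ⟨m, hm⟩ := h n
    exact ⟨m, hm.symm⟩
  · intro h n
    obtain ⟨m, hm⟩ := h n
    exact ⟨m, hm.symm⟩

theorem mem_intLattice_iff (f : CuspForm (Gamma0 N) 2) :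
    f ∈ CuspForm.intLattice N 2 ↔ IntCoeff f := by
  constructor
  · intro hf
    unfold CuspForm.intLattice at hf
    induction hf using Submodule.span_induction with
    | mem x hx => exact hx
    | zero =>
      intro n
      exact ⟨0, by rw [← qLin_apply, map_zero]; simp⟩
    | add x y _ _ hx hy =>
      intro n
      obtain ⟨m₁, h₁⟩ := hx n
      obtain ⟨m₂, h₂⟩ := hy n
      exact ⟨m₁ + m₂, by rw [qCoeff_add, h₁, h₂]; push_cast; ring⟩
    | smul a x _ hx =>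
      intro n
      obtain ⟨m, hm⟩ := hx n
      refine ⟨a * m, ?_⟩
      rw [← qLin_apply, map_zsmul, qLin_apply, hm]
      push_cast
      simp
  · intro hf
    exact Submodule.subset_span hf

theorem qCoeff_heckeTLin {ℓ : ℕ} (hℓ : ℓ.Prime) (hℓN : ¬ ℓ ∣ N) (f : CuspForm (Gamma0 N) 2)
    (n : ℕ) :
    qCoeff (⇑(CuspForm.heckeTLin 2 hℓ hℓN f)) n =
      qCoeff (⇑f) (n * ℓ) + if ℓ ∣ n then (ℓ : ℂ) * qCoeff (⇑f) (n / ℓ) else 0 := by
  rw [CuspForm.coe_heckeTLin_apply, ModularFormClass.qCoeff_heckeT f one_mem_sp hℓ.ne_zero n,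
    ModularForm.coeffHeckeT_apply]
  norm_num

theorem qCoeff_heckeULin [NeZero N] {ℓ : ℕ} (hℓ : ℓ.Prime) (hℓN : ℓ ∣ N)
    (f : CuspForm (Gamma0 N) 2) (n : ℕ) :
    qCoeff (⇑(CuspForm.heckeULin 2 hℓN f)) n = qCoeff (⇑f) (n * ℓ) := by
  rw [CuspForm.coe_heckeULin_apply, ModularFormClass.qCoeff_heckeU f one_mem_sp hℓ.ne_zero n,
    ModularForm.coeffHeckeU_apply]

/-- Forms whose `q`-expansion is integral and divisible by `3`. -/
def Div3 (f : CuspForm (Gamma0 N) 2) : Prop :=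
  ∀ n : ℕ, ∃ m : ℤ, qCoeff (⇑f) n = 3 * (m : ℂ)

theorem Div3.add {f g : CuspForm (Gamma0 N) 2} (hf : Div3 f) (hg : Div3 g) : Div3 (f + g) := by
  intro n
  obtain ⟨m₁, h₁⟩ := hf n
  obtain ⟨m₂, h₂⟩ := hg n
  exact ⟨m₁ + m₂, by rw [qCoeff_add, h₁, h₂]; push_cast; ring⟩

theorem Div3.zero : Div3 (0 : CuspForm (Gamma0 N) 2) := by
  intro n
  exact ⟨0, by rw [← qLin_apply, map_zero]; simp⟩

theorem Div3.neg {f : CuspForm (Gamma0 N) 2} (hf : Div3 f) : Div3 (-f) := by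
  intro n
  obtain ⟨m, hm⟩ := hf n
  exact ⟨-m, by rw [← qLin_apply, map_neg, qLin_apply, hm]; push_cast; ring⟩

theorem Div3.sub {f g : CuspForm (Gamma0 N) 2} (hf : Div3 f) (hg : Div3 g) : Div3 (f - g) := by
  rw [sub_eq_add_neg]
  exact hf.add hg.neg

theorem Div3.of_intCoeff_smul {f : CuspForm (Gamma0 N) 2} (hf : IntCoeff f) :
    Div3 ((3 : ℂ) • f) := by
  intro n
  obtain ⟨m, hm⟩ := hf n
  exact ⟨m, by rw [qCoeff_smul, hm]⟩

theorem Div3.exists_eq_smul {f : CuspForm (Gamma0 N) 2} (hf : Div3 f) :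
    ∃ g : CuspForm (Gamma0 N) 2, IntCoeff g ∧ f = (3 : ℂ) • g := by
  refine ⟨(3 : ℂ)⁻¹ • f, ?_, ?_⟩
  · intro n
    obtain ⟨m, hm⟩ := hf n
    refine ⟨m, ?_⟩
    rw [qCoeff_smul, hm]
    field_simp
  · rw [smul_smul]
    norm_num

theorem Div3.intCoeff {f : CuspForm (Gamma0 N) 2} (hf : Div3 f) : IntCoeff f := by
  intro n
  obtain ⟨m, hm⟩ := hf n
  exact ⟨3 * m, by rw [hm]; push_cast; ring⟩

theorem IntCoeff.apply_heckeAlgebra [NeZero N] {S : Set ℕ}
    {t : Module.End ℂ (CuspForm (Gamma0 N) 2)} (ht : t ∈ CuspForm.heckeAlgebra N 2 S)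
    {f : CuspForm (Gamma0 N) 2} (hf : IntCoeff f) : IntCoeff (t f) :=
  (mem_intLattice_iff _).mp
    (CuspForm.mem_intLattice_of_mem_heckeAlgebra (by norm_num) ht ((mem_intLattice_iff _).mpr hf))

theorem Div3.apply_heckeAlgebra [NeZero N] {S : Set ℕ}
    {t : Module.End ℂ (CuspForm (Gamma0 N) 2)} (ht : t ∈ CuspForm.heckeAlgebra N 2 S)
    {f : CuspForm (Gamma0 N) 2} (hf : Div3 f) : Div3 (t f) := by
  obtain ⟨g, hg, rfl⟩ := hf.exists_eq_smul
  rw [map_smul]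
  exact Div3.of_intCoeff_smul (hg.apply_heckeAlgebra ht)

end Fermat.Agent.S49
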