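import Mathlib

set_option autoImplicit false

namespace Fermat.Agent.S49

open Module

/-- A commuting family of endomorphisms of a finite-dimensional vector space over an
algebraically closed field has a common eigenvector in any nonzero invariant subspace. -/
theorem exists_common_eigenvector_aux {K V : Type*} [Field K] [IsAlgClosed K]
    [AddCommGroup V] [Module K V] [FiniteDimensional K V]
    (S : Set (Module.End K V)) (hcomm : ∀ a ∈ S, ∀ b ∈ S, Commute a b) :
    ∀ (n : ℕ) (W : Submodule K V), finrank K W = n → W ≠ ⊥ →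
      (∀ a ∈ S, ∀ w ∈ W, a w ∈ W) →
      ∃ v ∈ W, v ≠ 0 ∧ ∀ a ∈ S, ∃ c : K, a v = c • v := by
  intro n
  induction n using Nat.strong_induction_on with
  | _ n ih =>
    intro W hn hW hinv
    by_cases hsc : ∀ a ∈ S, ∃ c : K, ∀ w ∈ W, a w = c • w
    · obtain ⟨v, hvW, hv0⟩ := Submodule.exists_mem_ne_zero_of_ne_bot hW
      refine ⟨v, hvW, hv0, fun a ha => ?_⟩
      obtain ⟨c, hc⟩ := hsc a ha
      exact ⟨c, hc v hvW⟩
    · simp only [not_forall, not_exists] at hsc
      obtain ⟨a, haS, ha⟩ := hsc
      -- restrict a to W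
      have hmaps : ∀ w ∈ W, a w ∈ W := hinv a haS
      let aW : Module.End K W := a.restrict hmaps
      have : Nontrivial W := Submodule.nontrivial_iff_ne_bot.mpr hW
      obtain ⟨μ, hμ⟩ := Module.End.exists_eigenvalue aW
      obtain ⟨w0, hw0⟩ := hμ.exists_hasEigenvector
      -- W' = W ⊓ eigenspace a μ
      let W' : Submodule K V := W ⊓ Module.End.eigenspace a μ
      have hw0W' : (w0 : V) ∈ W' := by
        refine ⟨w0.2, ?_⟩
        show (w0 : V) ∈ Module.End.eigenspace a μ
        rw [Module.End.mem_eigenspace_iff]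
        have := hw0.apply_eq_smul
        have h2 := congrArg (Subtype.val) this
        simpa [aW] using h2
      have hw0ne : (w0 : V) ≠ 0 := by
        intro h
        exact hw0.2 (Subtype.ext h)
      have hW'ne : W' ≠ ⊥ := by
        intro h
        have : (w0 : V) ∈ (⊥ : Submodule K V) := h ▸ hw0W'
        exact hw0ne (by simpa using this)
      have hW'le : W' ≤ W := inf_le_left
      have hW'lt : W' < W := by
        refine lt_of_le_of_ne hW'le ?_
        intro heq
        obtain ⟨w, hwW, hw⟩ := ha μ
        apply hw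
        have : w ∈ W' := heq ▸ hwW
        exact Module.End.mem_eigenspace_iff.mp this.2
      have hfr : finrank K W' < n := by
        rw [← hn]
        exact Submodule.finrank_lt_finrank_of_lt hW'lt
      have hinv' : ∀ b ∈ S, ∀ w ∈ W', b w ∈ W' := by
        intro b hb w hw
        refine ⟨hinv b hb w hw.1, ?_⟩
        show b w ∈ Module.End.eigenspace a μ
        rw [Module.End.mem_eigenspace_iff]
        have h1 : a w = μ • w := Module.End.mem_eigenspace_iff.mp hw.2
        have hc : a (b w) = b (a w) := by
          have := hcomm a haS b hb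
          exact congrArg (fun f : Module.End K V => f w) this.eq
        rw [hc, h1, map_smul]
      obtain ⟨v, hvW', hv0, hv⟩ := ih _ hfr W' rfl hW'ne hinv'
      exact ⟨v, hW'le hvW', hv0, hv⟩

theorem exists_common_eigenvector {K V : Type*} [Field K] [IsAlgClosed K]
    [AddCommGroup V] [Module K V] [FiniteDimensional K V]
    (S : Set (Module.End K V)) (hcomm : ∀ a ∈ S, ∀ b ∈ S, Commute a b)
    (W : Submodule K V) (hW : W ≠ ⊥) (hinv : ∀ a ∈ S, ∀ w ∈ W, a w ∈ W) :
    ∃ v ∈ W, v ≠ 0 ∧ ∀ a ∈ S, ∃ c : K, a v = c • v :=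
  exists_common_eigenvector_aux S hcomm _ W rfl hW hinv

end Fermat.Agent.S49
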