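import Mathlib
import Fermat.Agent.S49.Eigen

set_option autoImplicit false

namespace Fermat.Agent.S49

open Module

/-- A common eigenvector of a ring of commuting operators gives a character. -/
theorem exists_character_of_common_eigenvector {A V : Type*} [CommRing A] [AddCommGroup V]
    [Module ℂ V] (ρ : A →+* Module.End ℂ V) (v : V) (hv : v ≠ 0)
    (h : ∀ t, ∃ c : ℂ, ρ t v = c • v) :
    ∃ θ : A →+* ℂ, ∀ t, ρ t v = θ t • v := by
  choose θ hθ using h
  have inj : Function.Injective (fun c : ℂ => c • v) := smul_left_injective ℂ hv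
  refine ⟨{ toFun := θ, map_one' := ?_, map_mul' := ?_, map_zero' := ?_, map_add' := ?_ }, hθ⟩
  · apply inj
    simp only
    rw [← hθ, map_one, Module.End.one_apply, one_smul]
  · intro x y
    apply inj
    simp only
    rw [← hθ, map_mul, Module.End.mul_apply, hθ y, map_smul, hθ x, smul_smul, mul_comm]
  · apply inj
    simp only
    rw [← hθ, map_zero, LinearMap.zero_apply, zero_smul]
  · intro x y
    apply inj
    simp only
    rw [← hθ, map_add, LinearMap.add_apply, hθ x, hθ y, add_smul]

/-- Abstract Deligne–Serre lifting: for a Noetherian commutative ring `A`, integral over `ℤ`,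
acting faithfully on a finite-dimensional complex vector space, and any prime ideal `m`,
there is a common eigenvector whose eigencharacter has kernel contained in `m`. -/
theorem exists_eigenvector_ker_le {A V : Type*} [CommRing A] [IsNoetherianRing A]
    [Algebra.IsIntegral ℤ A] [AddCommGroup V] [Module ℂ V] [FiniteDimensional ℂ V]
    (ρ : A →+* Module.End ℂ V) (hρ : Function.Injective ρ) (m : Ideal A) [m.IsPrime] :
    ∃ (v : V) (θ : A →+* ℂ), v ≠ 0 ∧ (∀ t, ρ t v = θ t • v) ∧ RingHom.ker θ ≤ m := by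
  obtain ⟨P, hPmin, hPm⟩ := Ideal.exists_minimalPrimes_le (I := (⊥ : Ideal A)) (J := m) bot_le
  have hann : Module.annihilator A A = ⊥ := by
    rw [eq_bot_iff]
    intro a ha
    have := (Module.mem_annihilator.mp ha) (1 : A)
    simpa using this
  have hass : P ∈ associatedPrimes A A :=
    Module.associatedPrimes.minimalPrimes_annihilator_subset_associatedPrimes A A
      (by rw [hann]; exact hPmin)
  obtain ⟨hPprime, y, hy⟩ := (isAssociatedPrime_iff).mp hass
  have hPy : ∀ t, t ∈ P ↔ t * y = 0 := by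
    intro t
    rw [hy, Submodule.mem_colon_singleton]
    simp
  have hy0 : y ≠ 0 := by
    intro h0
    apply hPprime.ne_top
    rw [Ideal.eq_top_iff_one, hPy, h0, mul_zero]
  -- the invariant subspace W = range (ρ y)
  let W : Submodule ℂ V := LinearMap.range (ρ y)
  have hW : W ≠ ⊥ := by
    intro h
    apply hy0
    apply hρ
    rw [map_zero]
    exact LinearMap.range_eq_bot.mp h
  have hcomm : ∀ a ∈ Set.range ρ, ∀ b ∈ Set.range ρ, Commute a b := by
    rintro _ ⟨s, rfl⟩ _ ⟨t, rfl⟩
    show ρ s * ρ t = ρ t * ρ s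
    rw [← map_mul, ← map_mul, mul_comm]
  have hinv : ∀ a ∈ Set.range ρ, ∀ w ∈ W, a w ∈ W := by
    rintro _ ⟨s, rfl⟩ w ⟨u, rfl⟩
    refine ⟨ρ s u, ?_⟩
    have : ρ y * ρ s = ρ s * ρ y := by rw [← map_mul, ← map_mul, mul_comm]
    exact congrArg (fun f : Module.End ℂ V => f u) this
  obtain ⟨v, hvW, hv0, hv⟩ := exists_common_eigenvector (Set.range ρ) hcomm W hW hinv
  obtain ⟨θ, hθ⟩ := exists_character_of_common_eigenvector ρ v hv0
    (fun t => hv (ρ t) ⟨t, rfl⟩)
  refine ⟨v, θ, hv0, hθ, ?_⟩
  -- P ≤ ker θ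
  have hPker : P ≤ RingHom.ker θ := by
    intro t ht
    rw [RingHom.mem_ker]
    obtain ⟨u, rfl⟩ := hvW
    have h1 : ρ t (ρ y u) = 0 := by
      have : ρ t * ρ y = 0 := by rw [← map_mul, (hPy t).mp ht, map_zero]
      exact congrArg (fun f : Module.End ℂ V => f u) this
    have h2 := hθ t
    rw [h1] at h2
    rcases smul_eq_zero.mp h2.symm with h | h
    · exact h
    · exact absurd h hv0
  -- incomparability
  have hkerP : RingHom.ker θ ≤ P := by
    by_contra hne
    obtain ⟨x, hxker, hxP⟩ := Set.not_subset.mp hne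
    have hlt := Ideal.comap_lt_comap_of_integral_mem_sdiff (R := ℤ) hPker
      (x := x) ⟨hxker, hxP⟩ (Algebra.IsIntegral.isIntegral x)
    have hbot : Ideal.comap (algebraMap ℤ A) (RingHom.ker θ) = ⊥ := by
      rw [eq_bot_iff]
      intro n hn
      rw [Ideal.mem_comap, RingHom.mem_ker] at hn
      have : ((n : ℤ) : ℂ) = 0 := by simpa using hn
      simpa using this
    rw [hbot] at hlt
    exact not_lt_bot hlt
  exact hkerP.trans hPm

/-- Lying over: a character `θ : A → ℂ` of a ring integral over `ℤ` with kernel inside a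
maximal ideal `m` factors through `ℤ̄` and there is a maximal ideal of `ℤ̄` containing the
image of `m`. -/
theorem exists_maximal_over {A : Type*} [CommRing A] [Algebra.IsIntegral ℤ A]
    (θ : A →+* ℂ) (m : Ideal A) [m.IsMaximal] (hker : RingHom.ker θ ≤ m) :
    ∃ (θ' : A →+* integralClosure ℤ ℂ) (𝔪' : Ideal (integralClosure ℤ ℂ)),
      𝔪'.IsMaximal ∧ (∀ t, (θ' t : ℂ) = θ t) ∧ ∀ t ∈ m, θ' t ∈ 𝔪' := by
  have hint : ∀ t, θ t ∈ integralClosure ℤ ℂ := fun t =>
    (Algebra.IsIntegral.isIntegral (R := ℤ) t).map θ.toIntAlgHom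
  let θ' : A →+* integralClosure ℤ ℂ := θ.codRestrict (integralClosure ℤ ℂ).toSubring hint
  letI : Algebra A (integralClosure ℤ ℂ) := θ'.toAlgebra
  have hAint : Algebra.IsIntegral A (integralClosure ℤ ℂ) := by
    constructor
    intro x
    have hx : IsIntegral ℤ x := Algebra.IsIntegral.isIntegral x
    exact hx.tower_top
  have hker' : RingHom.ker (algebraMap A (integralClosure ℤ ℂ)) ≤ m := by
    intro t ht
    apply hker
    rw [RingHom.mem_ker] at ht ⊢
    have : ((algebraMap A (integralClosure ℤ ℂ) t : integralClosure ℤ ℂ) : ℂ) = θ t := rfl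
    rw [← this, ht]
    rfl
  obtain ⟨Q, hQmax, hQ⟩ := Ideal.exists_ideal_over_maximal_of_isIntegral m hker'
  refine ⟨θ', Q, hQmax, fun t => rfl, fun t ht => ?_⟩
  have : t ∈ Ideal.comap (algebraMap A (integralClosure ℤ ℂ)) Q := hQ ▸ ht
  exact this

end Fermat.Agent.S49
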