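import Mathlib

set_option autoImplicit false

namespace Fermat.Agent.S49

/-- Hecke recursion relation for a coefficient sequence `c`, with "character" `e`
and eigenvalues `lam`. -/
def HeckeRel (e c : ℕ → ℂ) : Prop :=
  ∀ ℓ : ℕ, ℓ.Prime → ∃ lam : ℂ, ∀ n : ℕ,
    c (n * ℓ) + (if ℓ ∣ n then e ℓ * c (n / ℓ) else 0) = lam * c n

variable {e c : ℕ → ℂ}

theorem HeckeRel.eq_zero (h : HeckeRel e c) (h1 : c 1 = 0) : ∀ n, 0 < n → c n = 0 := by
  intro n
  induction n using Nat.strong_induction_on with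
  | _ n ih =>
    intro hn
    by_cases hn1 : n = 1
    · rw [hn1, h1]
    have hn2 : 2 ≤ n := by omega
    have hℓ : (Nat.minFac n).Prime := Nat.minFac_prime hn1
    set ℓ := Nat.minFac n with hℓdef
    have hdvd : ℓ ∣ n := Nat.minFac_dvd n
    have hm : n / ℓ * ℓ = n := Nat.div_mul_cancel hdvd
    have hmpos : 0 < n / ℓ := Nat.div_pos (Nat.le_of_dvd hn hdvd) hℓ.pos
    have hmlt : n / ℓ < n := Nat.div_lt_self hn hℓ.one_lt
    obtain ⟨lam, hlam⟩ := h ℓ hℓ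
    have hrel := hlam (n / ℓ)
    rw [hm, ih _ hmlt hmpos, mul_zero] at hrel
    by_cases hd : ℓ ∣ n / ℓ
    · rw [if_pos hd] at hrel
      have hpos2 : 0 < n / ℓ / ℓ := Nat.div_pos (Nat.le_of_dvd hmpos hd) hℓ.pos
      have hlt2 : n / ℓ / ℓ < n := lt_of_le_of_lt (Nat.div_le_self _ _) hmlt
      rw [ih _ hlt2 hpos2, mul_zero, add_zero] at hrel
      exact hrel
    · rw [if_neg hd, add_zero] at hrel
      exact hrel

theorem HeckeRel.lam_eq (h1 : c 1 = 1) {ℓ : ℕ} (hℓ : ℓ.Prime) {lam : ℂ}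
    (hlam : ∀ n : ℕ, c (n * ℓ) + (if ℓ ∣ n then e ℓ * c (n / ℓ) else 0) = lam * c n) :
    lam = c ℓ := by
  have hrel := hlam 1
  have hnd : ¬ ℓ ∣ 1 := by
    intro hd
    exact hℓ.one_lt.ne' (Nat.dvd_one.mp hd)
  rw [if_neg hnd, add_zero, one_mul, h1, mul_one] at hrel
  exact hrel.symm

theorem HeckeRel.mul_coprime (h : HeckeRel e c) (h1 : c 1 = 1) :
    ∀ m n : ℕ, m.Coprime n → c (m * n) = c m * c n := by
  intro m
  induction m using Nat.strong_induction_on with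
  | _ m ih =>
    intro n hmn
    rcases Nat.eq_zero_or_pos m with hm0 | hmpos
    · subst hm0
      have hn1 : n = 1 := by simpa using hmn
      subst hn1
      rw [h1, mul_one, mul_one]
    by_cases hm1 : m = 1
    · subst hm1
      rw [h1, one_mul, one_mul]
    have hℓ : (Nat.minFac m).Prime := Nat.minFac_prime hm1
    set ℓ := Nat.minFac m with hℓdef
    have hdvd : ℓ ∣ m := Nat.minFac_dvd m
    have hm : m / ℓ * ℓ = m := Nat.div_mul_cancel hdvd
    have hm₁lt : m / ℓ < m := Nat.div_lt_self hmpos hℓ.one_lt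
    have hcop₁ : (m / ℓ).Coprime n := Nat.Coprime.coprime_dvd_left (Nat.div_dvd_of_dvd hdvd) hmn
    have hℓn : ¬ ℓ ∣ n := by
      intro hd
      have := Nat.Coprime.eq_one_of_dvd (Nat.Coprime.coprime_dvd_left hdvd hmn) hd
      exact hℓ.one_lt.ne' this
    obtain ⟨lam, hlam⟩ := h ℓ hℓ
    have hrel1 := hlam (m / ℓ * n)
    have hrel2 := hlam (m / ℓ)
    have e1 : m / ℓ * n * ℓ = m * n := by
      calc m / ℓ * n * ℓ = (m / ℓ * ℓ) * n := by ring
        _ = m * n := by rw [hm]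
    rw [e1, ih _ hm₁lt n hcop₁] at hrel1
    rw [hm] at hrel2
    by_cases hd : ℓ ∣ m / ℓ
    · have hd' : ℓ ∣ m / ℓ * n := Dvd.dvd.mul_right hd n
      rw [if_pos hd'] at hrel1
      rw [if_pos hd] at hrel2
      have e2 : m / ℓ * n / ℓ = m / ℓ / ℓ * n := (Nat.div_mul_right_comm hd n).symm
      have hlt2 : m / ℓ / ℓ < m := lt_of_le_of_lt (Nat.div_le_self _ _) hm₁lt
      have hcop₂ : (m / ℓ / ℓ).Coprime n :=
        Nat.Coprime.coprime_dvd_left (Nat.div_dvd_of_dvd hd) hcop₁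
      rw [e2, ih _ hlt2 n hcop₂] at hrel1
      linear_combination hrel1 - c n * hrel2
    · have hd' : ¬ ℓ ∣ m / ℓ * n := by
        intro hdd
        rcases (Nat.Prime.dvd_mul hℓ).mp hdd with h' | h'
        · exact hd h'
        · exact hℓn h'
      rw [if_neg hd', add_zero] at hrel1
      rw [if_neg hd, add_zero] at hrel2
      linear_combination hrel1 - c n * hrel2

theorem HeckeRel.prime_pow (h : HeckeRel e c) (h1 : c 1 = 1) {ℓ : ℕ} (hℓ : ℓ.Prime)
    (r : ℕ) : c (ℓ ^ (r + 2)) = c ℓ * c (ℓ ^ (r + 1)) - e ℓ * c (ℓ ^ r) := by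
  obtain ⟨lam, hlam⟩ := h ℓ hℓ
  have hrel := hlam (ℓ ^ (r + 1))
  have hd : ℓ ∣ ℓ ^ (r + 1) := dvd_pow_self ℓ (Nat.succ_ne_zero r)
  have e1 : ℓ ^ (r + 1) * ℓ = ℓ ^ (r + 2) := by ring
  have e2 : ℓ ^ (r + 1) / ℓ = ℓ ^ r := by
    rw [pow_succ]
    exact Nat.mul_div_cancel _ hℓ.pos
  rw [if_pos hd, e1, e2, HeckeRel.lam_eq h1 hℓ hlam] at hrel
  linear_combination hrel

theorem HeckeRel.smul (h : HeckeRel e c) (a : ℂ) : HeckeRel e (fun n => a * c n) := by
  intro ℓ hℓ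
  obtain ⟨lam, hlam⟩ := h ℓ hℓ
  refine ⟨lam, fun n => ?_⟩
  have hrel := hlam n
  by_cases hd : ℓ ∣ n
  · rw [if_pos hd] at hrel ⊢
    linear_combination a * hrel
  · rw [if_neg hd] at hrel ⊢
    linear_combination a * hrel

end Fermat.Agent.S49
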