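import Mathlib
import Fermat.Agent.S49.QCoeff
import Fermat.Agent.S49.Abstract
import Fermat.Agent.S49.Formal

set_option autoImplicit false
open CuspForm EisensteinWeightOne CongruenceSubgroup ModularFormClass UpperHalfPlane

namespace Fermat.Agent.S49

variable {N : ℕ} [NeZero N]

/-- The full Hecke algebra (no primes removed). -/
noncomputable abbrev TT (N : ℕ) [NeZero N] :
    Subalgebra ℤ (Module.End ℂ (CuspForm (Gamma0 N) 2)) :=
  CuspForm.heckeAlgebra N 2 (∅ : Set ℕ)

instance instFiniteIntLattice : Module.Finite ℤ ↥(CuspForm.intLattice N 2) :=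
  Module.Finite.iff_fg.mpr (CuspForm.intLattice_fg N 2)

instance instFreeIntLattice : Module.Free ℤ ↥(CuspForm.intLattice N 2) :=
  Module.free_of_finite_type_torsion_free'

/-- Restriction of a Hecke operator to the integral lattice. -/
noncomputable def resLattice (t : TT N) :
    ↥(CuspForm.intLattice N 2) →ₗ[ℤ] ↥(CuspForm.intLattice N 2) :=
  LinearMap.restrict ((t : Module.End ℂ (CuspForm (Gamma0 N) 2)).restrictScalars ℤ)
    (fun _ hf => CuspForm.mem_intLattice_of_mem_heckeAlgebra (by norm_num) t.2 hf)

theorem resLattice_apply (t : TT N) (f : ↥(CuspForm.intLattice N 2)) :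
    ((resLattice t f : ↥(CuspForm.intLattice N 2)) : CuspForm (Gamma0 N) 2) =
      (t : Module.End ℂ (CuspForm (Gamma0 N) 2)) f := rfl

/-- Restriction to the lattice as an additive map. -/
noncomputable def resLatticeHom :
    TT N →+ (↥(CuspForm.intLattice N 2) →ₗ[ℤ] ↥(CuspForm.intLattice N 2)) where
  toFun := resLattice
  map_zero' := by
    ext f
    rw [resLattice_apply]
    simp
  map_add' s t := by
    ext f
    rw [resLattice_apply]
    simp [resLattice_apply]

theorem resLatticeHom_injective (h : CuspForm.HasIntegralBasis N) :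
    Function.Injective (resLatticeHom (N := N)) := by
  rw [injective_iff_map_eq_zero]
  intro t ht
  apply Subtype.ext
  show (t : Module.End ℂ (CuspForm (Gamma0 N) 2)) = 0
  apply LinearMap.ext_on h
  intro f hf
  have hfL : f ∈ CuspForm.intLattice N 2 :=
    (mem_intLattice_iff f).mpr ((mem_qIntegralSet_iff f).mp hf)
  have := congrArg (fun g : ↥(CuspForm.intLattice N 2) →ₗ[ℤ] ↥(CuspForm.intLattice N 2) =>
    ((g ⟨f, hfL⟩ : ↥(CuspForm.intLattice N 2)) : CuspForm (Gamma0 N) 2)) ht
  simpa [resLatticeHom, resLattice_apply] using this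

theorem finite_TT (h : CuspForm.HasIntegralBasis N) : Module.Finite ℤ (TT N) :=
  Module.Finite.of_injective (resLatticeHom (N := N)).toIntLinearMap (resLatticeHom_injective h)

end Fermat.Agent.S49
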