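import Mathlib
import Fermat.Agent.S49.Hecke
import Fermat.Prelude.Def_FormalHecke_Eigensystem

set_option autoImplicit false
open CuspForm EisensteinWeightOne CongruenceSubgroup ModularFormClass UpperHalfPlane

namespace Fermat.Agent.S49

variable {N : ℕ}

theorem three_dvd_sub_chiNegThree (ℓ : ℕ) : (3 : ℤ) ∣ (ℓ : ℤ) - chiNegThree ℓ := by
  unfold chiNegThree
  split_ifs <;> omega

theorem Div3.int_smul {f : CuspForm (Gamma0 N) 2} (hf : Div3 f) (c : ℤ) :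
    Div3 ((c : ℂ) • f) := by
  intro n
  obtain ⟨m, hm⟩ := hf n
  exact ⟨c * m, by rw [qCoeff_smul, hm]; push_cast; ring⟩

/-- `bridgeProduct a` is congruent to `a` modulo 3, coefficientwise. -/
theorem three_dvd_bridgeProduct_sub (a : ℕ → ℤ) (n : ℕ) :
    (3 : ℤ) ∣ (PowerSeries.coeff n (bridgeProduct a)) - a n := by
  have he : e1Chi3In ℤ = 1 + PowerSeries.C (3 : ℤ) *
      PowerSeries.mk (fun n => if n = 0 then 0 else 2 * sigmaChi n) := by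
    ext k
    unfold e1Chi3In e1Chi3
    simp only [PowerSeries.coeff_map, PowerSeries.coeff_mk, map_add, PowerSeries.coeff_one,
      PowerSeries.coeff_C_mul]
    by_cases hk : k = 0
    · simp [hk]
    · simp [hk]
      ring
  have hb : bridgeProduct a = PowerSeries.mk a + PowerSeries.C (3 : ℤ) *
      (PowerSeries.mk a * PowerSeries.mk (fun n => if n = 0 then 0 else 2 * sigmaChi n)) := by
    unfold bridgeProduct
    rw [he]
    ring
  rw [hb, map_add, PowerSeries.coeff_mk, PowerSeries.coeff_C_mul, add_sub_cancel_left]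
  exact dvd_mul_right _ _

/-- Data extracted from `IsLatticeRealized` + eigensystem. -/
structure RealData (N : ℕ) (a : ℕ → ℤ) (f₀ : CuspForm (Gamma0 N) 2) (af : ℕ → ℤ) : Prop where
  coeff : ∀ n, qCoeff (⇑f₀) n = (af n : ℂ)
  cong : ∀ n, (3 : ℤ) ∣ af n - a n
  one : a 1 = 1
  rel : ∀ ℓ : ℕ, ℓ.Prime → ∀ n : ℕ,
    a (ℓ * n) + (if ℓ ∣ N then 0 else chiNegThree ℓ) * (if ℓ ∣ n then a (n / ℓ) else 0) =
      a ℓ * a n

theorem exists_realData {a : ℕ → ℤ}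
    (heig : FormalHecke.IsEigensystem
      (fun ℓ => if ℓ ∣ N then 0 else ((chiNegThree ℓ : ℤ) : ℤ)) a)
    (hreal : CuspForm.IsLatticeRealized N a) :
    ∃ (f₀ : CuspForm (Gamma0 N) 2) (af : ℕ → ℤ), RealData N a f₀ af := by
  obtain ⟨f₀, -, af, haf, hcong⟩ := hreal
  refine ⟨f₀, af, fun n => (haf n).symm, fun n => ?_, heig.1, fun ℓ hℓ n => heig.2 ℓ hℓ n⟩
  have h1 := hcong n
  have h2 := three_dvd_bridgeProduct_sub a n
  have : af n - a n = (af n - (PowerSeries.coeff n (bridgeProduct a))) +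
      ((PowerSeries.coeff n (bridgeProduct a)) - a n) := by ring
  rw [this]
  exact dvd_add h1 h2

variable {a : ℕ → ℤ} {f₀ : CuspForm (Gamma0 N) 2} {af : ℕ → ℤ}

theorem RealData.intCoeff (D : RealData N a f₀ af) : IntCoeff f₀ :=
  fun n => ⟨af n, D.coeff n⟩

theorem RealData.not_div3 (D : RealData N a f₀ af) : ¬ Div3 f₀ := by
  intro h
  obtain ⟨m, hm⟩ := h 1
  rw [D.coeff 1] at hm
  have hm' : af 1 = 3 * m := by exact_mod_cast hm
  obtain ⟨k, hk⟩ := D.cong 1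
  rw [D.one] at hk
  omega

theorem RealData.div3_heckeT (D : RealData N a f₀ af) {ℓ : ℕ} (hℓ : ℓ.Prime) (hℓN : ¬ ℓ ∣ N) :
    Div3 (CuspForm.heckeTLin 2 hℓ hℓN f₀ - ((a ℓ : ℤ) : ℂ) • f₀) := by
  intro n
  rw [← qLin_apply, map_sub, qLin_apply, qLin_apply, qCoeff_heckeTLin, qCoeff_smul]
  simp only [D.coeff]
  obtain ⟨k1, hk1⟩ := D.cong (n * ℓ)
  obtain ⟨k3, hk3⟩ := D.cong n
  obtain ⟨k4, hk4⟩ := three_dvd_sub_chiNegThree ℓ
  have hrel := D.rel ℓ hℓ n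
  rw [if_neg hℓN, mul_comm ℓ n] at hrel
  by_cases hd : ℓ ∣ n
  · rw [if_pos hd] at hrel ⊢
    obtain ⟨k2, hk2⟩ := D.cong (n / ℓ)
    refine ⟨k1 + ℓ * k2 + k4 * a (n / ℓ) - a ℓ * k3, ?_⟩
    have : af (n * ℓ) + (ℓ : ℤ) * af (n / ℓ) - a ℓ * af n =
        3 * (k1 + ℓ * k2 + k4 * a (n / ℓ) - a ℓ * k3) := by
      linear_combination hk1 + (ℓ : ℤ) * hk2 - a ℓ * hk3 + a (n / ℓ) * hk4 + hrel
    exact_mod_cast this
  · rw [if_neg hd] at hrel ⊢
    refine ⟨k1 - a ℓ * k3, ?_⟩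
    have : af (n * ℓ) + 0 - a ℓ * af n = 3 * (k1 - a ℓ * k3) := by
      linear_combination hk1 - a ℓ * hk3 + hrel
    exact_mod_cast this

theorem RealData.div3_heckeU [NeZero N] (D : RealData N a f₀ af) {ℓ : ℕ} (hℓ : ℓ.Prime) (hℓN : ℓ ∣ N) :
    Div3 (CuspForm.heckeULin 2 hℓN f₀ - ((a ℓ : ℤ) : ℂ) • f₀) := by
  intro n
  rw [← qLin_apply, map_sub, qLin_apply, qLin_apply, qCoeff_heckeULin hℓ, qCoeff_smul]
  simp only [D.coeff]
  obtain ⟨k1, hk1⟩ := D.cong (n * ℓ)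
  obtain ⟨k3, hk3⟩ := D.cong n
  have hrel := D.rel ℓ hℓ n
  rw [if_pos hℓN, mul_comm ℓ n, zero_mul, add_zero] at hrel
  refine ⟨k1 - a ℓ * k3, ?_⟩
  have : af (n * ℓ) - a ℓ * af n = 3 * (k1 - a ℓ * k3) := by
    linear_combination hk1 - a ℓ * hk3 + hrel
  exact_mod_cast this

/-- Every Hecke operator acts on `f₀` as an integer modulo `3`. -/
theorem RealData.exists_int [NeZero N] (D : RealData N a f₀ af)
    {t : Module.End ℂ (CuspForm (Gamma0 N) 2)} (ht : t ∈ TT N) :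
    ∃ c : ℤ, Div3 (t f₀ - ((c : ℤ) : ℂ) • f₀) := by
  induction ht using Algebra.adjoin_induction with
  | mem x hx =>
    rcases hx with ⟨ℓ, hℓ, hℓN, -, rfl⟩ | ⟨q, hqN, hq, -, rfl⟩
    · exact ⟨a ℓ, D.div3_heckeT hℓ hℓN⟩
    · exact ⟨a q, D.div3_heckeU hq hqN⟩
  | algebraMap r =>
    refine ⟨r, ?_⟩
    have : (algebraMap ℤ (Module.End ℂ (CuspForm (Gamma0 N) 2)) r) f₀ = ((r : ℤ) : ℂ) • f₀ := by
      rw [Module.algebraMap_end_apply, Int.cast_smul_eq_zsmul]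
    rw [this, sub_self]
    exact Div3.zero
  | add x y _ _ hx hy =>
    obtain ⟨c₁, h₁⟩ := hx
    obtain ⟨c₂, h₂⟩ := hy
    refine ⟨c₁ + c₂, ?_⟩
    have : (x + y) f₀ - ((c₁ + c₂ : ℤ) : ℂ) • f₀ =
        (x f₀ - (c₁ : ℂ) • f₀) + (y f₀ - (c₂ : ℂ) • f₀) := by
      rw [LinearMap.add_apply]
      push_cast
      rw [add_smul]
      abel
    rw [this]
    exact h₁.add h₂
  | mul x y hxT _ hx hy =>
    obtain ⟨c₁, h₁⟩ := hx
    obtain ⟨c₂, h₂⟩ := hy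
    refine ⟨c₁ * c₂, ?_⟩
    have : (x * y) f₀ - ((c₁ * c₂ : ℤ) : ℂ) • f₀ =
        x (y f₀ - (c₂ : ℂ) • f₀) + (c₂ : ℂ) • (x f₀ - (c₁ : ℂ) • f₀) := by
      rw [Module.End.mul_apply, map_sub, map_smul, smul_sub, smul_smul]
      push_cast
      rw [mul_comm (c₂ : ℂ) (c₁ : ℂ)]
      abel
    rw [this]
    exact (Div3.apply_heckeAlgebra hxT h₂).add (h₁.int_smul c₂)

end Fermat.Agent.S49
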