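import Mathlib
import Fermat.Agent.S49.Ideal

set_option autoImplicit false
open CuspForm EisensteinWeightOne CongruenceSubgroup ModularFormClass UpperHalfPlane

namespace Fermat.Agent.S49

variable {N : ℕ} [NeZero N] {a : ℕ → ℤ} {f₀ : CuspForm (Gamma0 N) 2} {af : ℕ → ℤ}

/-- The ideal of Hecke operators killing `f₀` modulo 3. -/
noncomputable def eigenIdeal (f₀ : CuspForm (Gamma0 N) 2) : Ideal (TT N) where
  carrier := {t | Div3 ((t : Module.End ℂ (CuspForm (Gamma0 N) 2)) f₀)}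
  add_mem' := by
    intro s t hs ht
    show Div3 (((s + t : TT N) : Module.End ℂ (CuspForm (Gamma0 N) 2)) f₀)
    have : ((s + t : TT N) : Module.End ℂ (CuspForm (Gamma0 N) 2)) f₀ =
        (s : Module.End ℂ (CuspForm (Gamma0 N) 2)) f₀ +
          (t : Module.End ℂ (CuspForm (Gamma0 N) 2)) f₀ := rfl
    rw [this]
    exact Div3.add hs ht
  zero_mem' := by
    show Div3 (((0 : TT N) : Module.End ℂ (CuspForm (Gamma0 N) 2)) f₀)
    have : ((0 : TT N) : Module.End ℂ (CuspForm (Gamma0 N) 2)) f₀ = 0 := rfl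
    rw [this]
    exact Div3.zero
  smul_mem' := by
    intro s t ht
    show Div3 (((s * t : TT N) : Module.End ℂ (CuspForm (Gamma0 N) 2)) f₀)
    have : ((s * t : TT N) : Module.End ℂ (CuspForm (Gamma0 N) 2)) f₀ =
        (s : Module.End ℂ (CuspForm (Gamma0 N) 2))
          ((t : Module.End ℂ (CuspForm (Gamma0 N) 2)) f₀) := rfl
    rw [this]
    exact Div3.apply_heckeAlgebra s.2 ht

theorem mem_eigenIdeal (f₀ : CuspForm (Gamma0 N) 2) (t : TT N) :
    t ∈ eigenIdeal f₀ ↔ Div3 ((t : Module.End ℂ (CuspForm (Gamma0 N) 2)) f₀) := Iff.rfl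

theorem RealData.sub_intCast_mem (D : RealData N a f₀ af) (t : TT N) :
    ∃ c : ℤ, t - (c : TT N) ∈ eigenIdeal f₀ := by
  obtain ⟨c, hc⟩ := D.exists_int t.2
  refine ⟨c, ?_⟩
  rw [mem_eigenIdeal]
  have : ((t - (c : TT N) : TT N) : Module.End ℂ (CuspForm (Gamma0 N) 2)) f₀ =
      (t : Module.End ℂ (CuspForm (Gamma0 N) 2)) f₀ - ((c : ℤ) : ℂ) • f₀ := by
    have h1 : ((t - (c : TT N) : TT N) : Module.End ℂ (CuspForm (Gamma0 N) 2)) =
        (t : Module.End ℂ (CuspForm (Gamma0 N) 2)) -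
          ((c : ℤ) : Module.End ℂ (CuspForm (Gamma0 N) 2)) := by
      push_cast
      rfl
    rw [h1, LinearMap.sub_apply, Module.End.intCast_apply, Int.cast_smul_eq_zsmul]
  rw [this]
  exact hc

theorem RealData.intCast_mem_iff (D : RealData N a f₀ af) (c : ℤ) :
    (c : TT N) ∈ eigenIdeal f₀ ↔ (3 : ℤ) ∣ c := by
  have key : ((c : TT N) : Module.End ℂ (CuspForm (Gamma0 N) 2)) f₀ = ((c : ℤ) : ℂ) • f₀ := by
    have h1 : ((c : TT N) : Module.End ℂ (CuspForm (Gamma0 N) 2)) =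
        ((c : ℤ) : Module.End ℂ (CuspForm (Gamma0 N) 2)) := by
      push_cast
      rfl
    rw [h1, Module.End.intCast_apply, Int.cast_smul_eq_zsmul]
  rw [mem_eigenIdeal, key]
  constructor
  · intro h
    obtain ⟨m, hm⟩ := h 1
    rw [qCoeff_smul, D.coeff 1] at hm
    have hm' : c * af 1 = 3 * m := by exact_mod_cast hm
    obtain ⟨k, hk⟩ := D.cong 1
    rw [D.one] at hk
    have h3 : (3 : ℤ) ∣ c * af 1 := ⟨m, hm'⟩
    have haf : af 1 = 1 + 3 * k := by omega
    rw [haf] at h3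
    have : c * (1 + 3 * k) = c + 3 * (c * k) := by ring
    rw [this] at h3
    exact (Int.dvd_add_left (Dvd.intro _ rfl)).mp h3
  · rintro ⟨k, rfl⟩
    have : (((3 * k : ℤ) : ℤ) : ℂ) • f₀ = (3 : ℂ) • ((k : ℂ) • f₀) := by
      rw [smul_smul]
      push_cast
      rfl
    rw [this]
    apply Div3.of_intCoeff_smul
    intro n
    obtain ⟨m, hm⟩ := D.intCoeff n
    exact ⟨k * m, by rw [qCoeff_smul, hm]; push_cast; ring⟩

theorem RealData.eigenIdeal_isMaximal (D : RealData N a f₀ af) :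
    (eigenIdeal f₀).IsMaximal := by
  rw [Ideal.isMaximal_iff]
  constructor
  · intro h1
    have : ((1 : ℤ) : TT N) ∈ eigenIdeal f₀ := by simpa using h1
    have := (D.intCast_mem_iff 1).mp this
    omega
  · intro J x hIJ hxI hxJ
    obtain ⟨c, hc⟩ := D.sub_intCast_mem x
    have hcJ : (c : TT N) ∈ J := by
      have : (c : TT N) = x - (x - (c : TT N)) := by ring
      rw [this]
      exact J.sub_mem hxJ (hIJ hc)
    have hc3 : ¬ (3 : ℤ) ∣ c := by
      intro h3
      apply hxI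
      have : x = (x - (c : TT N)) + (c : TT N) := by ring
      rw [this]
      exact (eigenIdeal f₀).add_mem hc ((D.intCast_mem_iff c).mpr h3)
    have h3J : ((3 : ℤ) : TT N) ∈ J := hIJ ((D.intCast_mem_iff 3).mpr dvd_rfl)
    have hcop : IsCoprime c 3 := by
      rw [Int.isCoprime_iff_gcd_eq_one]
      have hp : Nat.Prime 3 := Nat.prime_three
      have := (Nat.Prime.coprime_iff_not_dvd hp).mpr
        (fun h : 3 ∣ c.natAbs => hc3 (Int.natCast_dvd.mpr h))
      rw [Int.gcd_comm]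
      exact this
    obtain ⟨u, v, huv⟩ := hcop
    have : (1 : TT N) = (u : TT N) * (c : TT N) + (v : TT N) * ((3 : ℤ) : TT N) := by
      have := congrArg (fun z : ℤ => (z : TT N)) huv
      simp only [Int.cast_add, Int.cast_mul, Int.cast_one] at this
      exact this.symm
    rw [this]
    exact J.add_mem (J.mul_mem_left _ hcJ) (J.mul_mem_left _ h3J)

end Fermat.Agent.S49
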